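/-
helper34: P-MW / GTA-4 (row 784).  The points dictionary of a maximal ideal, from
`FieldPointsStatement`.
-/
import Fermat.Agent.H3.MW.Interfaces

set_option autoImplicit false
set_option linter.style.haveILetI false

noncomputable section

open Module Polynomial TensorProduct

namespace Fermat.Agent.H34.MW

open Fermat.Agent.H92.MW Fermat.Agent.H3.MW

variable {R : Type} [CommRing R] [Algebra ℚ R] [IsDedekindDomain R]

/-- the rational matrix of `W m → R ⧸ I` in the bases `Module.finBasis ℚ (W m)` and `β` -/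
def ptE (𝒞 : MWDatum R) (I : Ideal R) {d : ℕ} (β : Module.Basis (Fin d) ℚ (R ⧸ I)) (m : ℕ) :
    Matrix (Fin d) (Fin (finrank ℚ (𝒞.W m))) ℚ :=
  Matrix.of fun b j => β.repr (Ideal.Quotient.mk I ((Module.finBasis ℚ (𝒞.W m) j : 𝒞.W m) : R)) b

theorem ptE_apply (𝒞 : MWDatum R) (I : Ideal R) {d : ℕ} (β : Module.Basis (Fin d) ℚ (R ⧸ I))
    (m : ℕ) (b : Fin d) (j : Fin (finrank ℚ (𝒞.W m))) :
    ptE 𝒞 I β m b j
      = β.repr (Ideal.Quotient.mk I ((Module.finBasis ℚ (𝒞.W m) j : 𝒞.W m) : R)) b := rfl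

/-- the reduction map `W m → R ⧸ I` as a `ℚ`-linear map -/
def ptRed (𝒞 : MWDatum R) (I : Ideal R) (m : ℕ) : 𝒞.W m →ₗ[ℚ] (R ⧸ I) :=
  (Ideal.Quotient.mkₐ ℚ I).toLinearMap ∘ₗ (𝒞.W m).subtype

theorem ptRed_apply (𝒞 : MWDatum R) (I : Ideal R) (m : ℕ) (w : 𝒞.W m) :
    ptRed 𝒞 I m w = Ideal.Quotient.mk I (w : R) := rfl

/-- `E m` applied to the coordinates of `w` gives the coordinates of the class of `w`. -/
theorem ptE_mulVec (𝒞 : MWDatum R) (I : Ideal R) {d : ℕ} (β : Module.Basis (Fin d) ℚ (R ⧸ I))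
    (m : ℕ) (w : 𝒞.W m) (b : Fin d) :
    (ptE 𝒞 I β m).mulVec (coordVec 𝒞 m w) b = β.repr (Ideal.Quotient.mk I (w : R)) b := by
  have hw : w = ∑ j, (Module.finBasis ℚ (𝒞.W m)).repr w j • Module.finBasis ℚ (𝒞.W m) j :=
    ((Module.finBasis ℚ (𝒞.W m)).sum_repr w).symm
  have h1 : Ideal.Quotient.mk I (w : R)
      = ∑ j, (Module.finBasis ℚ (𝒞.W m)).repr w j
          • ptRed 𝒞 I m (Module.finBasis ℚ (𝒞.W m) j) := by
    rw [← ptRed_apply 𝒞 I m w]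
    conv_lhs => rw [hw]
    rw [map_sum]
    refine Finset.sum_congr rfl fun j _ => ?_
    rw [map_smul]
  rw [h1, map_sum, Finsupp.coe_finsetSum, Finset.sum_apply, Matrix.mulVec, dotProduct]
  refine Finset.sum_congr rfl fun j _ => ?_
  rw [map_smul, Finsupp.smul_apply, smul_eq_mul, ptE_apply, coordVec, ptRed_apply, mul_comm]

theorem ptE_mulVec_eq_zero_iff (𝒞 : MWDatum R) (I : Ideal R) {d : ℕ}
    (β : Module.Basis (Fin d) ℚ (R ⧸ I)) (m : ℕ) (w : 𝒞.W m) :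
    (ptE 𝒞 I β m).mulVec (coordVec 𝒞 m w) = 0 ↔ (w : R) ∈ I := by
  rw [← Ideal.Quotient.eq_zero_iff_mem]
  constructor
  · intro h
    apply β.repr.injective
    rw [map_zero]
    ext b
    rw [← ptE_mulVec 𝒞 I β m w b, h]
    rfl
  · intro h
    funext b
    rw [ptE_mulVec, h, map_zero]
    rfl

/-- **GTA-4**: the points dictionary of a maximal ideal. -/
theorem ptDataMaximal (𝒞 : MWDatum R) (hF : FieldPointsStatement) :
    PtDataMaximalStatement 𝒞 := by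
  intro 𝔭 hmax hfin
  letI : Field (R ⧸ 𝔭) := Ideal.Quotient.field 𝔭
  let β : Module.Basis (Fin (finrank ℚ (R ⧸ 𝔭))) ℚ (R ⧸ 𝔭) := Module.finBasis ℚ (R ⧸ 𝔭)
  obtain ⟨σ, hσinj, hσdet, hσchar⟩ := hF (R ⧸ 𝔭) β
  show HasPtData 𝒞 𝔭 (finrank ℚ (R ⧸ 𝔭))
  refine ⟨fun a => (σ a).comp (Ideal.Quotient.mkₐ ℚ 𝔭), Matrix.of fun a b => σ a (β b),
    ptE 𝒞 𝔭 β, ?_, ?_, hσdet, ?_, ?_, ?_⟩
  · -- injectivity
    intro a a' h
    apply hσinj
    apply AlgHom.ext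
    intro x
    obtain ⟨y, rfl⟩ := Ideal.Quotient.mk_surjective x
    exact AlgHom.congr_fun h y
  · -- vanishing on `𝔭`
    intro a x hx
    show σ a (Ideal.Quotient.mk 𝔭 x) = 0
    rw [Ideal.Quotient.eq_zero_iff_mem.mpr hx, map_zero]
  · -- the evaluation matrix
    intro m
    ext a j
    rw [Matrix.mul_apply]
    show σ a (Ideal.Quotient.mk 𝔭 ((Module.finBasis ℚ (𝒞.W m) j : 𝒞.W m) : R)) = _
    conv_lhs => rw [← β.sum_repr (Ideal.Quotient.mk 𝔭 ((Module.finBasis ℚ (𝒞.W m) j : 𝒞.W m) : R))]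
    rw [map_sum]
    refine Finset.sum_congr rfl fun b _ => ?_
    rw [map_smul, Algebra.smul_def, mul_comm]
    rfl
  · -- the kernel
    intro m w
    exact ptE_mulVec_eq_zero_iff 𝒞 𝔭 β m w
  · -- the characteristic polynomial
    have h1 : 𝒞.tCharpoly 𝔭 = (LinearMap.mulLeft ℚ (Ideal.Quotient.mk 𝔭 𝒞.t)).charpoly := by
      unfold MWDatum.tCharpoly
      rw [dif_pos hfin]
    rw [h1]
    exact hσchar (Ideal.Quotient.mk 𝔭 𝒞.t)

end Fermat.Agent.H34.MW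

end
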