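/-
helper34: P-MW / LPF-SEP (row 796).  Separation: two `k`-algebra homomorphisms `O → V` from a
discrete valuation ring (essentially of finite type over `k`, residue field `k`) to a valuation
ring which map the uniformizer to the same element of the maximal ideal are equal.

Proof: `PP := (P, P') : O → V × V`, `B₁ := V[PP(S)]` is a finite `V`-module containing `PP(O)`,
`B₁ ≤ D + 𝔪_V B₁` with `D` the diagonal (`g = c + u g'`), hence `B₁ ≤ D` by Nakayama.
-/
import Fermat.Agent.H89.MW.LpfInterfaces
import Fermat.Agent.H96.MW.Interpolation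

set_option autoImplicit false

noncomputable section

namespace Fermat.Agent.H34.MW

open Fermat.Agent.H96.MW

/-- **LPF-SEP.** -/
theorem separation : Fermat.Agent.H89.MW.SeparationStatement := by
  intro k O V _ _ _ _ _ _ _ _ _ u P P' hu hres hfin hzmax hzeq
  classical
  obtain ⟨S, hS⟩ := hfin
  let PP : O →ₐ[k] (V × V) := AlgHom.prod P P'
  have hPPapp : ∀ g : O, PP g = (P g, P' g) := fun _ => rfl
  let B1 : Subalgebra V (V × V) := Algebra.adjoin V (PP '' (S : Set O))
  have hint : ∀ x : V × V, IsIntegral V x := fun x => IsIntegral.of_finite V x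
  have hfg : (Subalgebra.toSubmodule B1).FG :=
    fg_adjoin_of_finite ((S.finite_toSet).image _) (fun x _ => hint x)
  have hadj : ∀ p ∈ Algebra.adjoin k (S : Set O), PP p ∈ B1 := by
    intro p hp
    induction hp using Algebra.adjoin_induction with
    | mem x hx => exact Algebra.subset_adjoin ⟨x, hx, rfl⟩
    | algebraMap r =>
      have : PP (algebraMap k O r) = algebraMap V (V × V) (algebraMap k V r) := by
        rw [hPPapp, AlgHom.commutes, AlgHom.commutes]
        rfl
      rw [this]
      exact B1.algebraMap_mem _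
    | add x y _ _ hx hy => rw [map_add]; exact B1.add_mem hx hy
    | mul x y _ _ hx hy => rw [map_mul]; exact B1.mul_mem hx hy
  have hPPmem : ∀ g : O, PP g ∈ B1 := by
    intro g
    obtain ⟨p, q, hp, hq, hqu, hgq⟩ := hS g
    obtain ⟨q', hq'⟩ := hqu.exists_right_inv
    have hinv : PP q' ∈ B1 :=
      inv_mem_of_isIntegral B1 (hadj q hq) (by rw [← map_mul, hq', map_one]) (hint _)
    have : PP g = PP p * PP q' := by
      rw [← hgq, map_mul, mul_assoc, ← map_mul, hq', map_one, mul_one]
    rw [this]
    exact B1.mul_mem (hadj p hp) hinv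
  -- the diagonal
  let D : Submodule V (V × V) := LinearMap.range (Algebra.linearMap V (V × V))
  have hD : ∀ x : V × V, x ∈ D → x.1 = x.2 := by
    rintro x ⟨v, rfl⟩
    rfl
  have hNN : Subalgebra.toSubmodule B1 ≤
      D ⊔ IsLocalRing.maximalIdeal V • Subalgebra.toSubmodule B1 := by
    have hspan : Subalgebra.toSubmodule B1 ≤ Submodule.span V (Set.range PP) := by
      show Subalgebra.toSubmodule (Algebra.adjoin V (PP '' (S : Set O))) ≤ _
      rw [Algebra.adjoin_eq_span]
      apply Submodule.span_mono
      have : Submonoid.closure (PP '' (S : Set O)) ≤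
          MonoidHom.mrange (PP : O →* (V × V)) := by
        rw [Submonoid.closure_le]
        rintro _ ⟨s, _, rfl⟩
        exact ⟨s, rfl⟩
      intro x hx
      obtain ⟨y, hy⟩ := this hx
      exact ⟨y, hy⟩
    refine hspan.trans (Submodule.span_le.mpr ?_)
    rintro _ ⟨g, rfl⟩
    obtain ⟨c, hc⟩ := hres g
    rw [hu.maximalIdeal_eq, Ideal.mem_span_singleton'] at hc
    obtain ⟨g', hg'⟩ := hc
    have hg : g = algebraMap k O c + g' * u := by rw [hg']; ring
    have h1 : PP g = algebraMap V (V × V) (algebraMap k V c) + P u • PP g' := by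
      rw [hg, hPPapp, hPPapp]
      apply Prod.ext
      · show P (algebraMap k O c + g' * u) = algebraMap k V c + P u * P g'
        rw [map_add, map_mul, AlgHom.commutes, mul_comm]
      · show P' (algebraMap k O c + g' * u) = algebraMap k V c + P u * P' g'
        rw [map_add, map_mul, AlgHom.commutes, hzeq, mul_comm]
    show PP g ∈ D ⊔ IsLocalRing.maximalIdeal V • Subalgebra.toSubmodule B1
    rw [h1]
    exact Submodule.add_mem _ (Submodule.mem_sup_left ⟨_, rfl⟩)
      (Submodule.mem_sup_right (Submodule.smul_mem_smul hzmax (hPPmem g')))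
  have hle : Subalgebra.toSubmodule B1 ≤ D :=
    Submodule.le_of_le_smul_of_le_jacobson_bot hfg (IsLocalRing.maximalIdeal_le_jacobson ⊥) hNN
  apply AlgHom.ext
  intro g
  exact hD (PP g) (hle (hPPmem g))

end Fermat.Agent.H34.MW

end
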